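import Fermat.Agent.ORD.P4.Defs
import Fermat.Agent.GAL.KLB.Count

/-!
# ORD / P4-C : `ASClosed` for both charts from the dimension count `KLB.exists_redW_LL_eq`
-/

set_option autoImplicit false

open Polynomial

noncomputable section

namespace Fermat.Agent.ORD.P4

open Fermat.Agent.GAL.KL Fermat.Agent.GAL.KLC Fermat.Agent.GAL.KLB

variable {K F k Γ₀ : Type*} [Field K] [Field F] [Algebra K F] [Field k]
  [LinearOrderedCommGroupWithZero Γ₀] {v : Valuation F Γ₀} {ρ : v.integer →+* LaurentSeries k}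

/-- **C0.**  a root of `Y^p - c Y - b` (`p ≥ 2`, `c, b` integral over `k[ξ]`) is integral over `k[ξ]`.
PROOF.  `letI := ((aeval ξ : k[X] →ₐ[k] E) : k[X] →+* E).toAlgebra`, `B := integralClosure k[X] E`, `φ` is a root of the monic polynomial
`X^p - C ⟨c, hc⟩ * X - C ⟨b, hb⟩ : B[X]` (monic: `monic_X_pow_add`/`Monic.sub_of_left` + degree bound), `isIntegral_trans` /
`IsIntegral.of_... ` exactly as in `S28.e1_isIntegralElem_trans` (Fermat/Agent/S28/E1.lean, you may import it). -/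
theorem isInt_of_as {E : Type*} [Field E] [Algebra k E] {ξ φ c b : E} {p : ℕ} (hp : 2 ≤ p)
    (hc : IsInt k ξ c) (hb : IsInt k ξ b) (h : φ ^ p - c * φ - b = 0) : IsInt k ξ φ := by
  let f : k[X] →+* E := ((aeval ξ : k[X] →ₐ[k] E) : k[X] →+* E)
  let _ := f.toAlgebra
  let B := integralClosure k[X] E
  have hcB : c ∈ B := hc
  have hbB : b ∈ B := hb
  have hφ : IsIntegral B φ := by
    refine ⟨X ^ p - (C (⟨c, hcB⟩ : B) * X + C (⟨b, hbB⟩ : B)), ?_, ?_⟩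
    · apply Polynomial.monic_X_pow_sub
      refine degree_linear_lt.trans_le ?_
      exact_mod_cast hp
    · rw [eval₂_sub, eval₂_add, eval₂_mul, eval₂_pow, eval₂_X, eval₂_C, eval₂_C]
      have e : φ ^ p - (c * φ + b) = 0 := by rw [← h]; ring
      exact e
  exact isIntegral_trans (R := k[X]) (A := B) φ hφ

section Main

variable [IsAlgClosed K] [CharZero K] (hρ : IsRed K v ρ) {x x' : F}
    (hx : x ∈ v.integer) (hx' : x' ∈ v.integer) {m : ℕ} (hm : 0 < m)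
    (hxo : (ρ ⟨x, hx⟩).order = -(m : ℤ)) (hxo' : (ρ ⟨x', hx'⟩).order = -(m : ℤ) + 1)
    (hSp : Spans K x (fun i : Fin m => x' ^ (i : ℕ))) {g : ℕ}
    (hRI : ∀ a : ℕ, ((a * m + 1 : ℕ) : ℤ) - g ≤ Module.finrank K (LL K x a))
    (f : Fin g → LaurentSeries k) (hf : LinearIndependent k f) (hf0 : ∀ j, 0 < (f j).order)
    (hb2 : ∀ z : v.integer, IsInt k (ρ ⟨x, hx⟩) (ρ z) → ∀ j, (ρ z * f j).coeff 0 = 0)

include hρ hx' hm hxo hxo' hSp hRI hf hf0 hb2 in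
/-- **C1** (LIFT).  The proof is contained in the proof of `KLB.rootClosed_of_count` (Fermat/Agent/GAL/KLB/Count.lean): there
`h3 : IsInt k (ρ X) (ρ y)` (resp. `IsInt k (ρ X)⁻¹ (ρ y)`) is lifted to `z ∈ LL K x a` (resp. `x⁻¹ ^ a * z`).  Copy the second halves of the two bullets. -/
theorem lift_of_count :
    (∀ y : v.integer, IsInt k (ρ ⟨x, hx⟩) (ρ y) → ∃ z : F, IsInt K x z ∧ v ((y : F) - z) < 1) ∧
    (∀ y : v.integer, IsInt k (ρ ⟨x, hx⟩)⁻¹ (ρ y) →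
      ∃ z : F, IsInt K x⁻¹ z ∧ v ((y : F) - z) < 1) := by
  have hG : Gauss K v x := gauss_of_isRed hρ hx (by rw [hxo]; omega)
  obtain ⟨a₀, ha₀⟩ := exists_redW_LL_eq hρ hx hx' hm hxo hxo' hSp hRI f hf hf0 hb2
  set X : v.integer := ⟨x, hx⟩ with hX
  have hξ0 : ρ X ≠ 0 := by
    intro h
    rw [h, HahnSeries.order_zero] at hxo
    omega
  constructor
  · intro y h3
    obtain ⟨m₀, hm₀⟩ := IsInt.shift (t := (ρ X)⁻¹) (inv_ne_zero hξ0) (by rw [inv_inv]; exact h3)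
    have hmem : ρ y ∈ Bbar hρ (ρ X) (max a₀ m₀) :=
      ⟨⟨h3, hm₀ _ (le_max_right _ _)⟩, _, rfl⟩
    rw [← (ha₀ _ (le_max_left _ _)).1] at hmem
    obtain ⟨z, hz, hzρ⟩ := hmem
    refine ⟨z, hz.1, ?_⟩
    have := (hρ.ker (y - z)).mp (by rw [map_sub, hzρ, sub_self])
    exact this
  · intro y h3
    obtain ⟨m₀, hm₀⟩ := IsInt.shift (t := ρ X) hξ0 h3
    set a := max a₀ m₀ with ha
    have hmem : ρ (X ^ a * y) ∈ Bbar hρ (ρ X) a := by
      refine ⟨⟨?_, ?_⟩, _, rfl⟩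
      · rw [map_mul, map_pow]
        exact hm₀ _ (le_max_right _ _)
      · rw [map_mul, map_pow, ← mul_assoc, ← mul_pow, inv_mul_cancel₀ hξ0, one_pow, one_mul]
        exact h3
    rw [← (ha₀ _ (le_max_left _ _)).1] at hmem
    obtain ⟨z, hz, hzρ⟩ := hmem
    refine ⟨x⁻¹ ^ a * z, hz.2, ?_⟩
    have := (hρ.ker (y - invInt X hG.v_t ^ a * z)).mp (by
      rw [map_sub, map_mul, map_pow, rho_invInt, hzρ, map_mul, map_pow, ← mul_assoc, ← mul_pow,
        inv_mul_cancel₀ hξ0, one_pow, one_mul, sub_self])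
    exact this

include hρ hx' hm hxo hxo' hSp hRI hf hf0 hb2 in
/-- **C2.**  PROOF.  Given `y c b`: `v b ≤ 1` (`b = y^p - c y - (y^p - c y - b)`); `ρ y ^ p - ρ c * ρ y - ρ b = 0` (`hρ.ker`); `ρ c`, `ρ b` are integral over `k[ρ X]`
by `KLB.isInt_rho` (as in `rootClosed_of_count`; for the chart `x⁻¹` use `invInt`, `rho_invInt`); `isInt_of_as`; `lift_of_count`. -/
theorem asClosed_of_count (p : ℕ) (hp : 2 ≤ p) : ASClosed K v x p ∧ ASClosed K v x⁻¹ p := by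
  have hG : Gauss K v x := gauss_of_isRed hρ hx (by rw [hxo]; omega)
  have hON := on_of_isRed hρ hx hx' hm hxo hxo'
  obtain ⟨hL1, hL2⟩ := lift_of_count hρ hx hx' hm hxo hxo' hSp hRI f hf hf0 hb2
  set X : v.integer := ⟨x, hx⟩ with hX
  have hb1 : ∀ y c b : F, v c ≤ 1 → v y ≤ 1 → v (y ^ p - c * y - b) < 1 → v b ≤ 1 := by
    intro y c b hc hy hyb
    have h1 : b = y ^ p - c * y - (y ^ p - c * y - b) := by ring
    rw [h1]
    refine le_trans (Valuation.map_sub v _ _) (max_le ?_ hyb.le)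
    refine le_trans (Valuation.map_sub v _ _) (max_le ?_ ?_)
    · rw [map_pow]
      exact pow_le_one₀ zero_le hy
    · rw [map_mul]
      exact mul_le_one' hc hy
  have hker : ∀ y c b : v.integer, v ((y : F) ^ p - (c : F) * (y : F) - (b : F)) < 1 →
      ρ y ^ p - ρ c * ρ y - ρ b = 0 := by
    intro y c b hyb
    have h := (hρ.ker (y ^ p - c * y - b)).mpr hyb
    rwa [map_sub, map_sub, map_mul, map_pow] at h
  constructor
  · intro y c b hc hb hc1 hy hyb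
    have hbb : v b ≤ 1 := hb1 y c b hc1 hy hyb
    have h1 := hker ⟨y, hy⟩ ⟨c, hc1⟩ ⟨b, hbb⟩ hyb
    have h2 : IsInt k (ρ X) (ρ (⟨b, hbb⟩ : v.integer)) := isInt_rho hρ X hG _ hON hSp ⟨b, hbb⟩ hb
    have h2' : IsInt k (ρ X) (ρ (⟨c, hc1⟩ : v.integer)) := isInt_rho hρ X hG _ hON hSp ⟨c, hc1⟩ hc
    exact hL1 ⟨y, hy⟩ (isInt_of_as hp h2' h2 h1)
  · intro y c b hc hb hc1 hy hyb
    have hbb : v b ≤ 1 := hb1 y c b hc1 hy hyb
    have h1 := hker ⟨y, hy⟩ ⟨c, hc1⟩ ⟨b, hbb⟩ hyb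
    have h2 : IsInt k (ρ (invInt X hG.v_t)) (ρ (⟨b, hbb⟩ : v.integer)) :=
      isInt_rho hρ (invInt X hG.v_t) hG.inv _ (hON.inv hG) (hSp.inv hG.ne_zero) ⟨b, hbb⟩ hb
    have h2' : IsInt k (ρ (invInt X hG.v_t)) (ρ (⟨c, hc1⟩ : v.integer)) :=
      isInt_rho hρ (invInt X hG.v_t) hG.inv _ (hON.inv hG) (hSp.inv hG.ne_zero) ⟨c, hc1⟩ hc
    rw [rho_invInt] at h2 h2'
    exact hL2 ⟨y, hy⟩ (isInt_of_as hp h2' h2 h1)

end Main

end Fermat.Agent.ORD.P4
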