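import Fermat.Agent.ORD.P4.Main
import Fermat.Agent.ORD.P4.Count
import Fermat.Agent.GAL.KLC.MainOf

/-!
# ORD / P4 : `KL_p` for `FL ℚ̄ M`, `p ∤ M` (good reduction), from the three contracts of `GAL/KLC/MainOf.lean`
-/

set_option autoImplicit false

open ModularCurve AlgebraicCurve Polynomial

noncomputable section

namespace Fermat.Agent.ORD.P4

open Fermat.Agent.GR Fermat.Agent.GAL Fermat.Agent.GAL.KL Fermat.Agent.GAL.KLC

/-- both reduced charts are closed under roots of `Y^p - c Y - b`. -/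
theorem asClosed_of (M ℓ : ℕ) [NeZero M] (hℓ : ℓ.Prime)
    (A : ValuationSubring Qb) (hA : A.LiesOverPrime ℓ)
    (hSp : SpansStatement M) (hRI : RIStatement M) (hCT : CTStatement M A) (n : ℕ) (hn : 2 ≤ n) :
    ASClosed Qb (vG A M) (xF M) n ∧ ASClosed Qb (vG A M) (xF M)⁻¹ n := by
  have : CharP (kA A) ℓ := charP_residueField hℓ hA
  obtain ⟨fZ, hfc, hf0, hfi⟩ := exists_cusp_basis M ℓ hℓ (kA A)
  exact asClosed_of_count (isRed A M) (xF_mem_integer M A) (xF'_mem_integer M A) (mX_pos M)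
    (order_rho_xF M A) (order_rho_xF' M A) hSp hRI
    (fun j => psR (kA A) (fZ j)) hfi (fun j => order_psR_pos _ (hf0 j) (hfi.ne_zero j))
    (fun z hz j => hCT _ (z : FL Qb M).2 _ (hasRed_rho A M z)
      (by rw [rho_xF] at hz; exact hz) _ (hfc j)) n hn

theorem pData (M p : ℕ) [NeZero M] (hp : p.Prime) (A : ValuationSubring Qb)
    (hA : A.LiesOverPrime p) (lam : Qb) (hlam : lam ^ (p - 1) = -(p : Qb)) :
    PData (vG A M) p (vG A M (algebraMap Qb (FL Qb M) lam)) where
  prime := hp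
  lt := ValArch.vG_prime_lt_one A M hp hA
  ne := by exact_mod_cast hp.ne_zero
  eq := by
    rw [← map_pow, ← map_pow, hlam, map_neg, Valuation.map_neg, map_natCast]

/-- **KL_p, valuation form**, from the three contracts. -/
theorem key_lemma_p_of (M p : ℕ) [NeZero M] (hp : p.Prime)
    (A : ValuationSubring Qb) (hA : A.LiesOverPrime p)
    (hSp : SpansStatement M) (hRI : RIStatement M) (hCT : CTStatement M A)
    (lam : Qb) (hlam : lam ^ (p - 1) = -(p : Qb))
    (W : FL Qb M) (hred : vG A M (W - 1) < vG A M (algebraMap Qb (FL Qb M) lam) ^ p)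
    (hdiv : ∀ P : Place Qb (FL Qb M), (p : ℤ) ∣ P.ord W) :
    ∃ y : FL Qb M, y ^ p = W := by
  have hn : 0 < p := hp.pos
  have D := pData M p hp A hA lam hlam
  obtain ⟨hr0, hroo⟩ := asClosed_of M p hp A hA hSp hRI hCT p hp.two_le
  have hw0 : W ≠ 0 := by
    intro h
    rw [h, zero_sub, Valuation.map_neg, map_one] at hred
    exact absurd (hred.trans (D.pow_lt.trans D.γ_lt)) (lt_irrefl _)
  have htr : Transcendental Qb (xF M) := transcendental_xF M
  have htr' : Transcendental Qb (xF M)⁻¹ := S24.FF.transcendental_inv htr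
  exact keyLemmaP (arch A M hp hA) (gauss_xF M A) _ (on_xF M A) hSp D hr0 hroo hred
    (fun c => locPow_of_dvd htr hn hw0 hdiv c) (fun c => locPow_of_dvd htr' hn hw0 hdiv c)

end Fermat.Agent.ORD.P4
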