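import Fermat.Agent.ORD.P4.Defs

/-!
# ORD / P4 : basic API for `PData`, and the binomial formula `(a + y)^p = a^p + y^p + p a^(p-1) y + p y² κ`
-/

set_option autoImplicit false

namespace Fermat.Agent.ORD.P4

open Polynomial Fermat.Agent.GAL.KL

variable {F Γ₀ : Type*} [Field F] [LinearOrderedCommGroupWithZero Γ₀]
variable {v : Valuation F Γ₀} {p : ℕ} {γ₀ : Γ₀}

theorem PData.v_ne (D : PData v p γ₀) : v (p : F) ≠ 0 := (Valuation.ne_zero_iff v).2 D.ne

theorem PData.two_le (D : PData v p γ₀) : 2 ≤ p := D.prime.two_le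

theorem PData.γ_ne (D : PData v p γ₀) : γ₀ ≠ 0 := by
  rintro rfl
  have h := D.eq
  rw [zero_pow (by have := D.two_le; omega)] at h
  exact D.v_ne h.symm

theorem PData.γ_lt (D : PData v p γ₀) : γ₀ < 1 := by
  by_contra h
  rw [not_lt] at h
  have h1 : 1 ≤ γ₀ ^ (p - 1) := one_le_pow₀ h
  rw [D.eq] at h1
  exact absurd D.lt (not_lt.2 h1)

theorem PData.pow_eq (D : PData v p γ₀) : γ₀ ^ p = γ₀ * v (p : F) := by
  have h : p = (p - 1) + 1 := by have := D.two_le; omega
  conv_lhs => rw [h]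
  rw [pow_succ, D.eq, mul_comm]

theorem PData.pow_ne (D : PData v p γ₀) : γ₀ ^ p ≠ 0 := pow_ne_zero _ D.γ_ne

theorem PData.pow_lt (D : PData v p γ₀) : γ₀ ^ p < γ₀ := by
  rw [D.pow_eq]
  calc γ₀ * v (p : F) < γ₀ * 1 := mul_lt_mul_of_pos_left D.lt (zero_lt_iff.2 D.γ_ne)
    _ = γ₀ := mul_one _

theorem v_natCast_le_one (m : ℕ) : v (m : F) ≤ 1 := by
  induction m with
  | zero => simp
  | succ m ih =>
    rw [Nat.cast_succ]
    exact Valuation.map_add_le v ih (le_of_eq v.map_one)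

/-- the binomial formula for a prime exponent. -/
theorem binom_p (hp : p.Prime) {a y : F} (ha : v a ≤ 1) (hy : v y ≤ 1) :
    ∃ κ : F, v κ ≤ 1 ∧ (a + y) ^ p = a ^ p + y ^ p + p * a ^ (p - 1) * y + p * y ^ 2 * κ := by
  have h2 : 2 ≤ p := hp.two_le
  refine ⟨∑ k ∈ Finset.Ico 2 p, y ^ (k - 2) * a ^ (p - k) * ((p.choose k / p : ℕ) : F), ?_, ?_⟩
  · refine Valuation.map_sum_le v fun k _ => ?_
    rw [map_mul, map_mul, map_pow, map_pow]
    exact mul_le_one' (mul_le_one' (pow_le_one₀ zero_le hy) (pow_le_one₀ zero_le ha))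
      (v_natCast_le_one _)
  · rw [add_comm a y, add_pow_prime_eq' hp y a]
    have h1 : Finset.Ioo 0 p = Finset.Ico 1 p := by
      ext k; simp only [Finset.mem_Ioo, Finset.mem_Ico]; omega
    rw [h1, Finset.sum_eq_sum_Ico_succ_bot (by omega : 1 < p)]
    have h3 : p.choose 1 / p = 1 := by
      rw [Nat.choose_one_right, Nat.div_self hp.pos]
    rw [h3, Finset.mul_sum, mul_add, Finset.mul_sum]
    have h4 : ∀ k ∈ Finset.Ico (1 + 1) p, (p : F) * (y ^ k * a ^ (p - k) * ((p.choose k / p : ℕ) : F))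
        = (p : F) * y ^ 2 * (y ^ (k - 2) * a ^ (p - k) * ((p.choose k / p : ℕ) : F)) := by
      intro k hk
      rw [Finset.mem_Ico] at hk
      have : y ^ k = y ^ 2 * y ^ (k - 2) := by
        rw [← pow_add]; congr 1; omega
      rw [this]; ring
    rw [Finset.sum_congr rfl h4]
    simp only [pow_one, Nat.cast_one, mul_one]
    ring

end Fermat.Agent.ORD.P4
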