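import Fermat.Agent.ORD.P4.Orth
import Fermat.Agent.GAL.KL.NearOne

/-!
# ORD / P4-B : the distance from `x : F` to the chart ring `B_t` is attained or zero
-/

set_option autoImplicit false

namespace Fermat.Agent.ORD.P4

open Polynomial Fermat.Agent.GAL.KL

variable {L F Γ₀ : Type*} [Field L] [Field F] [Algebra L F] [LinearOrderedCommGroupWithZero Γ₀]
variable {v : Valuation F Γ₀} {t : F}

/-- the value of `comb P β` is a value of `L`. -/
theorem best_val_comb (hG : Gauss L v t) {d : ℕ} (β : Fin d → F) (hβ : ON L v t β)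
    (P : Fin d → L[X]) : ∃ a : L, v (comb L t P β) = v (algebraMap L F a) := by
  rcases isEmpty_or_nonempty (Fin d) with hd | hd
  · refine ⟨0, ?_⟩
    simp [comb]
  · obtain ⟨i₀, -, hmax⟩ := Finset.exists_max_image Finset.univ (fun i => v (aeval t (P i)))
      Finset.univ_nonempty
    obtain ⟨a, ha⟩ := hG.exists_const (P i₀)
    refine ⟨a, ?_⟩
    rw [← ha]
    exact le_antisymm ((hβ P _).2 fun i => hmax i (Finset.mem_univ i)) ((hβ P _).1 le_rfl i₀)

/-- **B0.**  every value of `F` is a value of `L`. -/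
theorem exists_val_const (hG : Gauss L v t) {d : ℕ} (β : Fin d → F) (hβ : ON L v t β)
    (hβs : Spans L t β) (y : F) : ∃ a : L, v y = v (algebraMap L F a) := by
  obtain ⟨q, P, hq, h⟩ := hβs y
  obtain ⟨a₁, ha₁⟩ := best_val_comb hG β hβ P
  obtain ⟨a₂, ha₂⟩ := hG.exists_const q
  have hq0 : aeval t q ≠ 0 := fun h0 => hq (hG.inj q h0)
  have hv0 : v (aeval t q) ≠ 0 := (Valuation.ne_zero_iff v).2 hq0
  refine ⟨a₁ / a₂, ?_⟩
  rw [map_div₀, map_div₀, ← ha₁, ← ha₂, ← h, map_mul]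
  field_simp

theorem best_nonempty (hG : Gauss L v t) {d : ℕ} (β : Fin d → F) (hβs : Spans L t β) :
    Nonempty (Fin d) := by
  by_contra hd
  rw [not_nonempty_iff] at hd
  obtain ⟨q, P, hq, h⟩ := hβs 1
  apply hq
  apply hG.inj
  rw [mul_one] at h
  rw [h]
  simp [comb]

/-- `q(t) x = comb P b` with `q` of Gauss norm one. -/
theorem best_exists_rel (hG : Gauss L v t) {d : ℕ} (β : Fin d → F) (hβs : Spans L t β)
    (b : Fin d → F) (hbON : ON L v t b) (x : F) :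
    ∃ (q : L[X]) (P : Fin d → L[X]), v (aeval t q) = 1 ∧ aeval t q * x = comb L t P b := by
  obtain ⟨i⟩ := best_nonempty hG β hβs
  obtain ⟨q₀, P₀, hq₀, hP₀⟩ := exists_matrix_of_bases hG.inj β hβs b (hbON.inj hG) (fun _ => x)
  obtain ⟨a, ha⟩ := hG.exists_const q₀
  have hq₀t : aeval t q₀ ≠ 0 := fun h => hq₀ (hG.inj q₀ h)
  have hva : v (algebraMap L F a) ≠ 0 := by
    rw [← ha]; exact (Valuation.ne_zero_iff v).2 hq₀t
  refine ⟨C a⁻¹ * q₀, fun j => C a⁻¹ * P₀ i j, ?_, ?_⟩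
  · rw [map_mul, aeval_C, map_mul, map_inv₀, map_inv₀, ha]
    exact inv_mul_cancel₀ hva
  · rw [NearOne.comb_mul_left', map_mul, mul_assoc, hP₀ i]

/-- **B1** (best approximation). -/
theorem best_approx [IsAlgClosed L] (hA : Arch v) (hG : Gauss L v t) {d : ℕ} (β : Fin d → F)
    (hβs : Spans L t β) (b : Fin d → F) (hb : IsBasis L t b (BB L t)) (hbON : ON L v t b) (x : F) :
    ∃ δ : Γ₀, (∀ b' : F, IsInt L t b' → δ ≤ v (x - b')) ∧
      ∀ γ : Γ₀, γ ≠ 0 → δ ≤ γ → ∃ b' : F, IsInt L t b' ∧ v (x - b') ≤ γ := by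
  obtain ⟨q, P, hq1, hP⟩ := best_exists_rel hG β hβs b hbON x
  obtain ⟨q₁, q₂, c, hqq, hq₁m, hq₁1, hc, hq₂⟩ := exists_factor hG q hq1
  have hdiv : ∀ j, P j = q₁ * (P j /ₘ q₁) + P j %ₘ q₁ := fun j => by
    rw [add_comm]; exact (modByMonic_add_div (P j) q₁).symm
  have hdeg : ∀ j, (P j %ₘ q₁).degree < q₁.degree := fun j => degree_modByMonic_lt _ hq₁m
  -- the general formula
  have key : ∀ r : Fin d → L[X], v (x - comb L t r b)
      = v (comb L t (fun j => P j - q * r j) b) := by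
    intro r
    rw [NearOne.comb_sub', NearOne.comb_mul_left', ← hP, ← mul_sub, map_mul, hq1, one_mul]
  refine ⟨v (comb L t (fun j => P j %ₘ q₁) b), ?_, ?_⟩
  · intro b' hb'
    obtain ⟨r, rfl⟩ := (hb.2 b').1 hb'
    rw [hbON]
    intro j
    have h1 := (hbON _ _).1 (key r).ge j
    have h2 : P j - q * r j = q₁ * (P j /ₘ q₁ - q₂ * r j) + P j %ₘ q₁ := by
      linear_combination hdiv j - r j * hqq
    rw [h2] at h1
    exact (orth hG q₁ _ _ hq₁m hq₁1 (hdeg j) _ h1).2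
  · intro γ hγ hδ
    obtain ⟨i⟩ := best_nonempty hG β hβs
    obtain ⟨j₀, -, hmax⟩ := Finset.exists_max_image Finset.univ
      (fun j => v (aeval t (P j /ₘ q₁))) ⟨i, Finset.mem_univ i⟩
    set R : Γ₀ := max (v (aeval t (P j₀ /ₘ q₁))) 1 with hR
    have hR0 : R ≠ 0 := (lt_of_lt_of_le zero_lt_one (le_max_right _ _)).ne'
    obtain ⟨s, hs⟩ := exists_approx_inv hA q₂ c hc hq₂ (γ * R⁻¹) (mul_ne_zero hγ (inv_ne_zero hR0))
    refine ⟨comb L t (fun j => P j /ₘ q₁ * s) b, (hb.2 _).2 ⟨_, rfl⟩, ?_⟩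
    rw [key, hbON]
    intro j
    have h2 : P j - q * (P j /ₘ q₁ * s) = q₁ * (P j /ₘ q₁) * (1 - q₂ * s) + P j %ₘ q₁ := by
      linear_combination hdiv j - (P j /ₘ q₁ * s) * hqq
    rw [h2, map_add]
    refine Valuation.map_add_le v ?_ (((hbON _ _).1 le_rfl j).trans hδ)
    rw [map_mul, map_mul, map_mul, map_mul, map_sub, map_one, Valuation.map_sub_swap]
    calc v (aeval t q₁) * v (aeval t (P j /ₘ q₁)) * v (aeval t (q₂ * s) - 1)
        ≤ 1 * R * (γ * R⁻¹) := by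
          refine mul_le_mul' (mul_le_mul' hq₁1 ?_) hs.le
          exact (hmax j (Finset.mem_univ j)).trans (le_max_left _ _)
      _ = γ := by
          rw [one_mul, mul_comm γ, ← mul_assoc, mul_inv_cancel₀ hR0, one_mul]

end Fermat.Agent.ORD.P4
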