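import Fermat.Agent.GAL.KL.Basic

/-!
# ORD / P4 : the key lemma for `n = p` = residue characteristic (`KL_p`).  Definitions (no sorry).

Setting of `GAL/KL`: `L` algebraically closed of characteristic zero, `v` a rank one valuation on `F ⊇ L(t)` which is Gauss on `L[t]`,
`β` an orthonormal `L(t)`-basis of `F`.  New: `v p < 1`, and `γ₀ = |λ| = |p|^(1/(p-1))`.

**KL_p**: `w ≡ 1 mod λ^p 𝔪` and `p ∣ div w`  ⟹  `w` is a `p`-th power.

Route (no discreteness, no completion, no descent to a DVR):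
* `ASClosed`  : the reduced chart ring is closed under roots of `Y^p - c Y - b` (normality of the reduced chart; from `KLB.exists_redW_LL_eq`).
* `best_approx` : for every `x : F` the distance from `x` to the chart ring `B_t` is *attained or zero*
  (Weierstrass division in `L[t]` + orthonormal basis of `B_t`).  This replaces the stability theorem / Epp.
* `Thick`     : `x^p ≡ b mod λ^p 𝔪`, `b ∈ B_t` ⟹ `x ≡ b' mod λ 𝔪`, `b' ∈ B_t`  (from the two previous points).
* `near_lam`  : a section `G ∈ I_t(w)` with `G ≡ 1 mod 𝔪` can be improved to `G ≡ 1 mod λ 𝔪`.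
* `newton_p`  : Newton iteration `G ↦ G (1 - ε/p)`, `ε = G^p w - 1`, converges as soon as `|ε| < |λ|^p`.
* then glue the two charts exactly as in `KL.keyLemma_of_bases`.
-/

set_option autoImplicit false

namespace Fermat.Agent.ORD.P4

open Polynomial Fermat.Agent.GAL.KL

variable (L : Type*) {F Γ₀ : Type*} [Field L] [Field F] [Algebra L F]
  [LinearOrderedCommGroupWithZero Γ₀]

/-- `B_t ∩ O_v` mod `m_v` is closed under roots of `Y ^ p - c Y - b` (`c, b ∈ B_t ∩ O_v`). -/
def ASClosed (v : Valuation F Γ₀) (t : F) (p : ℕ) : Prop :=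
  ∀ x c b : F, IsInt L t c → IsInt L t b → v c ≤ 1 → v x ≤ 1 → v (x ^ p - c * x - b) < 1 →
    ∃ b' : F, IsInt L t b' ∧ v (x - b') < 1

/-- thick root closedness: `x ^ p ≡ b` modulo `< γ₀ ^ p` implies `x ≡ b'` modulo `< γ₀`. -/
def Thick (v : Valuation F Γ₀) (t : F) (p : ℕ) (γ₀ : Γ₀) : Prop :=
  ∀ x b : F, IsInt L t b → v x ≤ 1 → v (x ^ p - b) < γ₀ ^ p →
    ∃ b' : F, IsInt L t b' ∧ v (x - b') < γ₀

/-- `p` is a prime with `0 < |p| < 1` and `γ₀ = |p|^(1/(p-1))`. -/
structure PData (v : Valuation F Γ₀) (p : ℕ) (γ₀ : Γ₀) : Prop where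
  prime : p.Prime
  lt : v (p : F) < 1
  ne : (p : F) ≠ 0
  eq : γ₀ ^ (p - 1) = v (p : F)

end Fermat.Agent.ORD.P4
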