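import Fermat.Agent.ORD.P4.Conc
import Fermat.Agent.GAL.KLC.Main

/-!
# ORD / P4 : **`KL_p`**, unconditional.

`M` admissible (`4 ∣ M` or `9 ∣ M`), `p ∤ M`, `A ∣ p`.  An element `W` of the function field of `X₀(M)` over `ℚ̄` whose divisor is divisible by `p` and with
`W ≡ 1` modulo `λ^p 𝔪` (`|λ|^(p-1) = |p|`) for the Gauss valuation is a `p`-th power.
-/

set_option autoImplicit false

open ModularCurve AlgebraicCurve Polynomial

noncomputable section

namespace Fermat.Agent.ORD.P4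

open Fermat.Agent.GR Fermat.Agent.GAL Fermat.Agent.GAL.KL Fermat.Agent.GAL.KLC

/-- **KL_p, valuation form, general `γ₀`.** -/
theorem key_lemma_p_val (M p : ℕ) [NeZero M] (hM : AdmLevel M) (hp : p.Prime) (hpM : ¬ p ∣ M)
    (A : ValuationSubring Qb) (hA : A.LiesOverPrime p)
    (γ₀ : (Ov A M).ValueGroup) (hγ₀ : γ₀ ^ (p - 1) = vG A M (p : FL Qb M))
    (W : FL Qb M) (hred : vG A M (W - 1) < γ₀ ^ p)
    (hdiv : ∀ P : Place Qb (FL Qb M), (p : ℤ) ∣ P.ord W) :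
    ∃ y : FL Qb M, y ^ p = W := by
  have hn : 0 < p := hp.pos
  have D : PData (vG A M) p γ₀ :=
    ⟨hp, ValArch.vG_prime_lt_one A M hp hA, by exact_mod_cast hp.ne_zero, hγ₀⟩
  obtain ⟨hr0, hroo⟩ := asClosed_of M p hp A hA (spansStatement M) (riStatement M)
    (ctStatement M p hM hp hpM A hA) p hp.two_le
  have hw0 : W ≠ 0 := by
    intro h
    rw [h, zero_sub, Valuation.map_neg, map_one] at hred
    exact absurd (hred.trans (D.pow_lt.trans D.γ_lt)) (lt_irrefl _)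
  have htr : Transcendental Qb (xF M) := transcendental_xF M
  have htr' : Transcendental Qb (xF M)⁻¹ := S24.FF.transcendental_inv htr
  exact keyLemmaP (arch A M hp hA) (gauss_xF M A) _ (on_xF M A) (spansStatement M) D hr0 hroo hred
    (fun c => locPow_of_dvd htr hn hw0 hdiv c) (fun c => locPow_of_dvd htr' hn hw0 hdiv c)

/-- the Gauss valuation of a unit of `A` is one. -/
theorem vG_algebraMap_eq_one (M : ℕ) (A : ValuationSubring Qb) {c : Qb} (hc : c ∈ A)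
    (hc' : c⁻¹ ∈ A) (hc0 : c ≠ 0) : vG A M (algebraMap Qb (FL Qb M) c) = 1 := by
  have h1 : ∀ a : Qb, a ∈ A → vG A M (algebraMap Qb (FL Qb M) a) ≤ 1 := by
    intro a ha
    refine (ValThm_le_one_iff A M).2 ⟨HahnSeries.C (IsLocalRing.residue A ⟨a, ha⟩), ?_⟩
    rw [ValThm_coe_algebraMap]
    exact hasRed_C A ⟨a, ha⟩
  have h2 := h1 c hc
  have h3 := h1 c⁻¹ hc'
  have hv0 : vG A M (algebraMap Qb (FL Qb M) c) ≠ 0 :=
    (Valuation.ne_zero_iff _).2 (by rwa [Ne, map_eq_zero])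
  rw [map_inv₀, map_inv₀, inv_le_one₀ (zero_lt_iff.2 hv0)] at h3
  exact le_antisymm h2 h3

/-- **KL_p, `HasRed` form.**  `lam ≠ 0` in `ℚ̄` with `p / lam^(p-1)` a unit of `A` (e.g. `lam = ζ_p - 1`, or `lam^(p-1) = -p`);
`(W - 1) / lam^p` reduces to `0`. -/
theorem key_lemma_p (M p : ℕ) [NeZero M] (hM : AdmLevel M) (hp : p.Prime) (hpM : ¬ p ∣ M)
    (A : ValuationSubring Qb) (hA : A.LiesOverPrime p)
    (lam : Qb) (hl0 : lam ≠ 0) (hlam : (p : Qb) / lam ^ (p - 1) ∈ A)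
    (hlam' : lam ^ (p - 1) / (p : Qb) ∈ A)
    (W : LaurentSeries Qb) (hW : W ∈ FL Qb M)
    (hred : HasRed A ((W - 1) / HahnSeries.C (lam ^ p)) 0)
    (hdiv : ∀ P : Place Qb (FL Qb M), (p : ℤ) ∣ P.ord ⟨W, hW⟩) :
    ∃ y ∈ FL Qb M, y ^ p = W := by
  have hp0 : (p : Qb) ≠ 0 := by exact_mod_cast hp.ne_zero
  have hu : vG A M (algebraMap Qb (FL Qb M) ((p : Qb) / lam ^ (p - 1))) = 1 :=
    vG_algebraMap_eq_one M A hlam (by rwa [inv_div])
      (div_ne_zero hp0 (pow_ne_zero _ hl0))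
  have hvl0 : vG A M (algebraMap Qb (FL Qb M) lam) ≠ 0 :=
    (Valuation.ne_zero_iff _).2 (by rwa [Ne, map_eq_zero])
  have hγ₀ : vG A M (algebraMap Qb (FL Qb M) lam) ^ (p - 1) = vG A M (p : FL Qb M) := by
    rw [map_div₀, map_div₀, map_natCast, map_pow, map_pow,
      div_eq_one_iff_eq (pow_ne_zero _ hvl0)] at hu
    exact hu.symm
  obtain ⟨y, hy⟩ := key_lemma_p_val M p hM hp hpM A hA _ hγ₀ ⟨W, hW⟩ (by
    have h1 : vG A M (((⟨W, hW⟩ : FL Qb M) - 1) / algebraMap Qb (FL Qb M) (lam ^ p)) < 1 := by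
      rw [vG_lt_one_iff]
      have e : ((((⟨W, hW⟩ : FL Qb M) - 1) / algebraMap Qb (FL Qb M) (lam ^ p) : FL Qb M) :
          LaurentSeries Qb) = (W - 1) / HahnSeries.C (lam ^ p) := by
        rw [← ValThm_coe_algebraMap M]
        rfl
      rw [e]
      exact hred
    rw [map_div₀, map_pow, map_pow, div_lt_one₀ (zero_lt_iff.2 (pow_ne_zero _ hvl0))] at h1
    exact h1) hdiv
  exact ⟨y, y.2, congrArg Subtype.val hy⟩

end Fermat.Agent.ORD.P4
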