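import Fermat.Agent.ORD.P4.Best

/-!
# ORD / P4-T : thick root closedness from thin closedness and best approximation
-/

set_option autoImplicit false

namespace Fermat.Agent.ORD.P4

open Polynomial Fermat.Agent.GAL.KL

variable {L F Γ₀ : Type*} [Field L] [Field F] [Algebra L F] [LinearOrderedCommGroupWithZero Γ₀]
variable {v : Valuation F Γ₀} {t : F} {p : ℕ} {γ₀ : Γ₀}

theorem ASClosed.rootClosed (h : ASClosed L v t p) : RootClosed L v t p := by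
  intro x b hb hxb hx
  exact h x 0 b IsInt.zero hb (by simp) hx (by simpa using hxb)

/-- `|p| < δ^(p-2)` if `γ₀ ≤ δ`. -/
theorem PData.v_lt_pow (D : PData v p γ₀) {δ : Γ₀} (hδ : γ₀ ≤ δ) : v (p : F) < δ ^ (p - 2) := by
  have h2 := D.two_le
  have hδ0 : δ ≠ 0 := (lt_of_lt_of_le (zero_lt_iff.2 D.γ_ne) hδ).ne'
  have h1 : p - 1 = (p - 2) + 1 := by omega
  rw [← D.eq, h1, pow_succ]
  calc γ₀ ^ (p - 2) * γ₀ ≤ δ ^ (p - 2) * γ₀ :=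
        mul_le_mul' (pow_le_pow_left₀ zero_le hδ _) le_rfl
    _ < δ ^ (p - 2) * 1 :=
        mul_lt_mul_of_pos_left D.γ_lt (zero_lt_iff.2 (pow_ne_zero _ hδ0))
    _ = δ ^ (p - 2) := mul_one _

/-- **T.**  PROOF.  Let `x, b` be given, `δ` from `best_approx`.  If `δ < γ₀`: upper bound with `γ = δ` if `δ ≠ 0`, with `γ = γ₀ ^ p` (`< γ₀`, `≠ 0`) if `δ = 0`.
Suppose `γ₀ ≤ δ`.  `b₀ ∈ B` with `v (x - b₀) = δ`; `δ ≤ v (x - 0) ≤ 1`; `y = x - b₀`, `v b₀ ≤ 1`.  `a : L` with `v a = δ` (`exists_val_const`), `θ = y / a`, `v θ = 1`.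
`binom_p`: `x^p = b₀^p + y^p + p b₀^(p-1) y + p y² κ`.  Put `c = -(p / a^(p-1)) b₀^(p-1) ∈ B`, `v c ≤ v p / δ^(p-1) ≤ 1`;  `b₂ = (b - b₀^p) / a^p ∈ B`.  Then
`θ^p - c θ - b₂ = ((x^p - b) - p y² κ) / a^p`, `v (x^p - b) < γ₀^p ≤ δ^p`, `v (p y² κ) ≤ v p δ² < δ^p` because `v p = γ₀ γ₀^(p-2) < δ^(p-2)`.
`hAS` gives `b'' ∈ B`, `v (θ - b'') < 1`; then `v (x - (b₀ + a b'')) = δ v (θ - b'') < δ`, contradicting the lower bound. -/
theorem thick_of_asClosed [IsAlgClosed L] (hA : Arch v) (hG : Gauss L v t) {d : ℕ} (β : Fin d → F)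
    (hβ : ON L v t β) (hβs : Spans L t β) (b : Fin d → F) (hb : IsBasis L t b (BB L t))
    (D : PData v p γ₀) (hAS : ASClosed L v t p) : Thick L v t p γ₀ := by
  intro x b₁ hb₁ hx hxb
  obtain ⟨e, he, heON⟩ := exists_ON_basis hG β hβ hβs _ b hb
  obtain ⟨δ, hlow, hup⟩ := best_approx hA hG β hβs e he heON x
  by_cases hδ : δ < γ₀
  · by_cases h0 : δ = 0
    · obtain ⟨b', hb', h⟩ := hup (γ₀ ^ p) D.pow_ne (by rw [h0]; exact zero_le)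
      exact ⟨b', hb', h.trans_lt D.pow_lt⟩
    · obtain ⟨b', hb', h⟩ := hup δ h0 le_rfl
      exact ⟨b', hb', h.trans_lt hδ⟩
  exfalso
  rw [not_lt] at hδ
  have h2 := D.two_le
  have hδ0 : δ ≠ 0 := (lt_of_lt_of_le (zero_lt_iff.2 D.γ_ne) hδ).ne'
  obtain ⟨b₀, hb₀, h⟩ := hup δ hδ0 le_rfl
  have hy : v (x - b₀) = δ := le_antisymm h (hlow b₀ hb₀)
  have hδ1 : δ ≤ 1 := (hlow 0 IsInt.zero).trans (by rwa [sub_zero])
  obtain ⟨y, hydef⟩ : ∃ y, y = x - b₀ := ⟨_, rfl⟩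
  rw [← hydef] at hy
  have hxy : b₀ + y = x := by rw [hydef]; ring
  have hvy1 : v y ≤ 1 := hy ▸ hδ1
  have hvb₀ : v b₀ ≤ 1 := by
    have : b₀ = x - y := by rw [hydef]; ring
    rw [this]
    exact (Valuation.map_sub v _ _).trans (max_le hx hvy1)
  obtain ⟨a, ha⟩ := exists_val_const hG β hβ hβs y
  obtain ⟨α, hα⟩ : ∃ α, α = algebraMap L F a := ⟨_, rfl⟩
  have hvα : v α = δ := by rw [hα, ← ha, hy]
  have hα0 : α ≠ 0 := (Valuation.ne_zero_iff v).1 (by rw [hvα]; exact hδ0)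
  obtain ⟨κ, hκ, hbin⟩ := binom_p D.prime hvb₀ hvy1
  rw [hxy] at hbin
  -- the coefficients
  have hc : IsInt L t (algebraMap L F (-(p : L) * (a ^ (p - 1))⁻¹) * b₀ ^ (p - 1)) :=
    (IsInt.algebraMap _).mul (hb₀.pow _)
  have hce : algebraMap L F (-(p : L) * (a ^ (p - 1))⁻¹) * b₀ ^ (p - 1)
      = -(p : F) * (α ^ (p - 1))⁻¹ * b₀ ^ (p - 1) := by
    rw [map_mul, map_neg, map_natCast, map_inv₀, map_pow, ← hα]
  have hb₂ : IsInt L t (algebraMap L F ((a ^ p)⁻¹) * (b₁ - b₀ ^ p)) :=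
    (IsInt.algebraMap _).mul (hb₁.sub (hb₀.pow _))
  have hbe : algebraMap L F ((a ^ p)⁻¹) * (b₁ - b₀ ^ p) = (α ^ p)⁻¹ * (b₁ - b₀ ^ p) := by
    rw [map_inv₀, map_pow, ← hα]
  rw [hce] at hc
  rw [hbe] at hb₂
  have hvc : v (-(p : F) * (α ^ (p - 1))⁻¹ * b₀ ^ (p - 1)) ≤ 1 := by
    rw [map_mul, map_mul, Valuation.map_neg, map_inv₀, map_pow, map_pow, hvα, ← D.eq]
    have h3 : γ₀ ^ (p - 1) * (δ ^ (p - 1))⁻¹ ≤ 1 := by
      calc γ₀ ^ (p - 1) * (δ ^ (p - 1))⁻¹ ≤ δ ^ (p - 1) * (δ ^ (p - 1))⁻¹ :=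
            mul_le_mul' (pow_le_pow_left₀ zero_le hδ _) le_rfl
        _ = 1 := mul_inv_cancel₀ (pow_ne_zero _ hδ0)
    exact mul_le_one' h3 (pow_le_one₀ zero_le hvb₀)
  have hvθ : v (α⁻¹ * y) ≤ 1 := by
    rw [map_mul, map_inv₀, hvα, hy, inv_mul_cancel₀ hδ0]
  have hid : (α⁻¹ * y) ^ p - -(p : F) * (α ^ (p - 1))⁻¹ * b₀ ^ (p - 1) * (α⁻¹ * y)
      - (α ^ p)⁻¹ * (b₁ - b₀ ^ p) = (α ^ p)⁻¹ * ((x ^ p - b₁) - p * y ^ 2 * κ) := by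
    have hpp : α ^ p = α ^ (p - 1) * α := by
      rw [← pow_succ]; congr 1; omega
    rw [hbin, mul_pow, inv_pow, hpp]
    field_simp
    ring
  have hsmall : v ((x ^ p - b₁) - p * y ^ 2 * κ) < δ ^ p := by
    refine lt_of_le_of_lt (Valuation.map_sub v _ _) (max_lt ?_ ?_)
    · exact hxb.trans_le (pow_le_pow_left₀ zero_le hδ _)
    · rw [map_mul, map_mul, map_pow, hy]
      have hpp : δ ^ p = δ ^ (p - 2) * δ ^ 2 := by
        rw [← pow_add]; congr 1; omega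
      rw [hpp]
      calc v (p : F) * δ ^ 2 * v κ ≤ v (p : F) * δ ^ 2 * 1 := mul_le_mul' le_rfl hκ
        _ = v (p : F) * δ ^ 2 := mul_one _
        _ < δ ^ (p - 2) * δ ^ 2 :=
            mul_lt_mul_of_pos_right (D.v_lt_pow hδ) (zero_lt_iff.2 (pow_ne_zero _ hδ0))
  obtain ⟨b'', hb'', hlt⟩ := hAS (α⁻¹ * y) _ _ hc hb₂ hvc hvθ (by
    rw [hid, map_mul, map_inv₀, map_pow, hvα]
    calc (δ ^ p)⁻¹ * v ((x ^ p - b₁) - p * y ^ 2 * κ) < (δ ^ p)⁻¹ * δ ^ p :=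
          mul_lt_mul_of_pos_left hsmall (zero_lt_iff.2 (inv_ne_zero (pow_ne_zero _ hδ0)))
      _ = 1 := inv_mul_cancel₀ (pow_ne_zero _ hδ0))
  have hb₃ : IsInt L t (b₀ + α * b'') := hb₀.add (by rw [hα]; exact (IsInt.algebraMap _).mul hb'')
  have h4 : x - (b₀ + α * b'') = α * (α⁻¹ * y - b'') := by
    rw [mul_sub, ← mul_assoc, mul_inv_cancel₀ hα0, one_mul, hydef]; ring
  have h5 := hlow _ hb₃
  rw [h4, map_mul, hvα] at h5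
  have h6 : δ * v (α⁻¹ * y - b'') < δ * 1 := mul_lt_mul_of_pos_left hlt (zero_lt_iff.2 hδ0)
  rw [mul_one] at h6
  exact absurd h5 (not_le.2 h6)

end Fermat.Agent.ORD.P4
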