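import Fermat.Agent.ORD.P4.Basic

/-!
# ORD / P4-N : inside one chart: from `G ≡ 1 mod 𝔪` to `G ≡ 1 mod λ𝔪`, Newton iteration for `n = p`, comparison of approximate roots
-/

set_option autoImplicit false

namespace Fermat.Agent.ORD.P4

open Polynomial Fermat.Agent.GAL.KL

variable {L F Γ₀ : Type*} [Field L] [Field F] [Algebra L F] [LinearOrderedCommGroupWithZero Γ₀]
variable {v : Valuation F Γ₀} {t : F} {p : ℕ} {γ₀ : Γ₀}

theorem N1_v_eq_one {x : F} (h : v (x - 1) < 1) : v x = 1 := by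
  have := Valuation.map_one_add_of_lt v h
  rwa [add_sub_cancel] at this

/-- **N1.**  PROOF.  `v G = 1`.  Apply `hT` to `x = G`, `b = G ^ p * w` (`G^p - G^p w = -G^p (w - 1)`): `b' ∈ B`, `v (G - b') < γ₀`, so `v (1 - b') < 1`.
`hA`: `v (1 - b') ^ K < γ₀`.  `c = ∑ k < K, (1 - b') ^ k ∈ B`, `v c ≤ 1`, `c * b' = 1 - (1 - b') ^ K` (`geom_sum_mul` / `mul_neg_geom_sum`).
`G₁ = c * G` (`II.mul`): `G₁ - 1 = c * (G - b') - (1 - b') ^ K`. -/
theorem near_lam (hA : Arch v) (D : PData v p γ₀) (hT : Thick L v t p γ₀) {w G : F}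
    (hG : G ∈ II L t p w) (hG1 : v (G - 1) < 1) (hw : v (w - 1) < γ₀ ^ p) :
    ∃ G₁ : F, G₁ ∈ II L t p w ∧ v (G₁ - 1) < γ₀ := by
  have hGv : v G = 1 := N1_v_eq_one hG1
  have h1 : v (G ^ p - G ^ p * w) < γ₀ ^ p := by
    have : G ^ p - G ^ p * w = -(G ^ p * (w - 1)) := by ring
    rw [this, Valuation.map_neg, map_mul, map_pow, hGv, one_pow, one_mul]
    exact hw
  obtain ⟨b', hb', hGb⟩ := hT G (G ^ p * w) hG hGv.le h1
  have h2 : v (1 - b') < 1 := by
    have : 1 - b' = (G - b') - (G - 1) := by ring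
    rw [this]
    exact Valuation.map_sub_lt v (hGb.trans D.γ_lt) hG1
  obtain ⟨K, hK⟩ := hA (1 - b') h2 γ₀ D.γ_ne
  set c : F := ∑ k ∈ Finset.range K, (1 - b') ^ k with hc
  have hcI : IsInt L t c := IsInt.sum _ _ fun k _ => (IsInt.one.sub hb').pow k
  have hcv : v c ≤ 1 := by
    refine Valuation.map_sum_le v fun k _ => ?_
    rw [map_pow]
    exact pow_le_one₀ zero_le h2.le
  have hcb : b' * c = 1 - (1 - b') ^ K := by
    have := mul_neg_geom_sum (1 - b') K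
    rwa [sub_sub_cancel] at this
  refine ⟨c * G, II.mul hcI hG, ?_⟩
  have h3 : c * G - 1 = c * (G - b') - (1 - b') ^ K := by
    have : c * G - 1 = c * (G - b') + (b' * c - 1) := by ring
    rw [this, hcb]; ring
  rw [h3]
  refine Valuation.map_sub_lt v ?_ (by rw [map_pow]; exact hK)
  rw [map_mul]
  exact lt_of_le_of_lt (mul_le_of_le_one_left' hcv) hGb

/-- **N2a.**  `G = 1 + x`, `binom_p`: `G^p - 1 = x^p + p x + p x² κ`, each term has `v < γ₀ ^ p = γ₀ * v p`;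
`G^p w - 1 = (G^p - 1) w + (w - 1)`, `v w = 1`. -/
theorem v_pow_mul_sub_one_lt (D : PData v p γ₀) {w G : F} (hG1 : v (G - 1) < γ₀)
    (hw : v (w - 1) < γ₀ ^ p) : v (G ^ p * w - 1) < γ₀ ^ p := by
  have hp0 : p ≠ 0 := D.prime.ne_zero
  have hx1 : v (G - 1) ≤ 1 := (hG1.trans D.γ_lt).le
  have hwv : v w = 1 := N1_v_eq_one (hw.trans (D.pow_lt.trans D.γ_lt))
  obtain ⟨κ, hκ, hbin⟩ := binom_p D.prime (a := (1 : F)) (y := G - 1) (le_of_eq v.map_one) hx1
  have h1 : G ^ p - 1 = (G - 1) ^ p + p * (G - 1) + p * (G - 1) ^ 2 * κ := by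
    have : (1 + (G - 1)) ^ p = G ^ p := by rw [add_sub_cancel]
    rw [this] at hbin
    rw [hbin]
    simp only [one_pow, mul_one]
    ring
  have hpx : v (p : F) * v (G - 1) < γ₀ ^ p := by
    rw [D.pow_eq, mul_comm γ₀]
    exact mul_lt_mul_of_pos_left hG1 (zero_lt_iff.2 D.v_ne)
  have h2 : v (G ^ p - 1) < γ₀ ^ p := by
    rw [h1]
    refine Valuation.map_add_lt v (Valuation.map_add_lt v ?_ ?_) ?_
    · rw [map_pow]
      exact pow_lt_pow_left₀ hG1 zero_le hp0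
    · rw [map_mul]
      exact hpx
    · rw [map_mul, map_mul, map_pow, pow_two]
      refine lt_of_le_of_lt ?_ hpx
      calc v (p : F) * (v (G - 1) * v (G - 1)) * v κ
          = (v (p : F) * v (G - 1)) * (v (G - 1) * v κ) := by
            simp only [mul_assoc]
        _ ≤ (v (p : F) * v (G - 1)) * 1 := mul_le_mul_right (mul_le_one' hx1 hκ) _
        _ = v (p : F) * v (G - 1) := mul_one _
  have h3 : G ^ p * w - 1 = (G ^ p - 1) * w + (w - 1) := by ring
  rw [h3]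
  refine Valuation.map_add_lt v ?_ hw
  rw [map_mul, hwv, mul_one]
  exact h2

/-- **N2b.**  One Newton step `G' = (1 - δ) G`, `δ = ε / p`, `ε = G^p w - 1`.  `δ = algebraMap L F (p : L)⁻¹ * ε ∈ B`, `v δ = v ε / v p < γ₀`.
`binom_p` with `a = 1`, `y = -δ`: `(1 - δ)^p = 1 + (-δ)^p - ε + p δ² κ`; so `ε' = G'^p w - 1 = (1 - δ)^p (1 + ε) - 1 = -ε² + R (1 + ε)`,
`R = (-δ)^p + p δ² κ`.  `v (ε²) = v ε * v ε ≤ v ε * (v a * v p) ≤ v a * v ε`;  `v (p δ²) = v ε * v δ ≤ v ε * v a` (`h1`);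
`v (δ^p) = v ε * (v ε ^ (p-1) / v p ^ p) ≤ v ε * v a` (`h2`).  `G' - 1 = (G - 1) - δ G`. -/
theorem newton_p_step (D : PData v p γ₀) {w G a : F} (hG : G ∈ II L t p w) (hG1 : v (G - 1) < γ₀)
    (h0 : v (G ^ p * w - 1) < γ₀ ^ p) (ha : v a ≤ 1)
    (h1 : v (G ^ p * w - 1) ≤ v a * v (p : F))
    (h2 : v (G ^ p * w - 1) ^ (p - 1) ≤ v a * v (p : F) ^ p) :
    ∃ G' : F, G' ∈ II L t p w ∧ v (G' - 1) < γ₀ ∧
      v (G' ^ p * w - 1) ≤ v a * v (G ^ p * w - 1) := by
  have hpF : (p : F) ≠ 0 := D.ne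
  have hP : 0 < v (p : F) := zero_lt_iff.2 D.v_ne
  have hp1 : p = (p - 1) + 1 := by have := D.two_le; omega
  set ε : F := G ^ p * w - 1 with hε
  set δ : F := algebraMap L F ((p : L)⁻¹) * ε with hδ
  have hδ' : δ = ε / p := by
    rw [hδ, map_inv₀, map_natCast]
    field_simp
  have hpδ : (p : F) * δ = ε := by
    rw [hδ']; field_simp
  have hvδ : v δ * v (p : F) = v ε := by
    rw [← map_mul, mul_comm, hpδ]
  have hεint : IsInt L t ε := IsInt.sub hG IsInt.one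
  have hδint : IsInt L t δ := IsInt.mul (IsInt.algebraMap _) hεint
  -- the three estimates on `v δ`
  have hd1 : v δ < γ₀ := by
    rw [D.pow_eq, ← hvδ] at h0
    exact lt_of_mul_lt_mul_right h0 zero_le
  have hd2 : v δ ≤ v a := by
    rw [← hvδ] at h1
    exact le_of_mul_le_mul_right h1 hP
  have hd3 : v δ ^ p ≤ v ε * v a := by
    have e1 : v δ ^ p * v (p : F) ^ p = v ε * v ε ^ (p - 1) := by
      rw [← mul_pow, hvδ]
      conv_lhs => rw [hp1, pow_succ']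
    have e2 : v δ ^ p * v (p : F) ^ p ≤ v ε * v a * v (p : F) ^ p := by
      rw [e1, mul_assoc]
      exact mul_le_mul_right h2 _
    exact le_of_mul_le_mul_right e2 (pow_pos hP p)
  have hδ1 : v δ ≤ 1 := (hd1.trans D.γ_lt).le
  have hε1 : v ε < 1 := h0.trans (D.pow_lt.trans D.γ_lt)
  have hGv : v G = 1 := by
    have : G = 1 + (G - 1) := by ring
    rw [this]
    exact Valuation.map_one_add_of_lt v (hG1.trans D.γ_lt)
  refine ⟨(1 - δ) * G, II.mul (IsInt.sub IsInt.one hδint) hG, ?_, ?_⟩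
  · have : (1 - δ) * G - 1 = (G - 1) - δ * G := by ring
    rw [this]
    refine Valuation.map_sub_lt v hG1 ?_
    rw [map_mul, hGv, mul_one]
    exact hd1
  · obtain ⟨κ, hκ, hb⟩ := binom_p (v := v) D.prime (a := 1) (y := -δ) (le_of_eq v.map_one)
      (by rw [Valuation.map_neg]; exact hδ1)
    have key : ((1 - δ) * G) ^ p * w - 1 =
        -(ε * ε) + ((-δ) ^ p + ε * δ * κ) * (1 + ε) := by
      have e1 : ((1 - δ) * G) ^ p * w = (1 + -δ) ^ p * (1 + ε) := by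
        rw [hε, mul_pow]; ring
      rw [e1, hb, one_pow, one_pow, ← hpδ]
      ring
    rw [key]
    refine Valuation.map_add_le v ?_ ?_
    · rw [Valuation.map_neg, map_mul]
      refine mul_le_mul_left ?_ _
      exact h1.trans (mul_le_of_le_one_right' D.lt.le)
    · rw [map_mul, Valuation.map_one_add_of_lt v hε1, mul_one]
      refine Valuation.map_add_le v ?_ ?_
      · rw [map_pow, Valuation.map_neg, mul_comm]
        exact hd3
      · rw [map_mul, map_mul, mul_comm (v a)]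
        refine (mul_le_of_le_one_right' hκ).trans ?_
        exact mul_le_mul_right hd2 _

/-- **N2.**  PROOF.  `ε₀ = G^p w - 1`, `v ε₀ < γ₀ ^ p` (N2a).  `δ₀ = ε₀ / p`, `v δ₀ < γ₀ < 1`, `v (δ₀ ^ (p-1) / p) < 1` (`γ₀^(p-1) = v p`).  Let `a` be the one of
`δ₀`, `δ₀^(p-1)/p` with the larger value: `v a < 1`, `h1`, `h2` hold for `ε₀`, and they persist when `v ε` decreases.
By induction on `k`: `∃ G_k ∈ I`, `v (G_k - 1) < γ₀`, `v ε_k ≤ v a ^ k * v ε₀`.  Conclude by `hA a`. -/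
theorem newton_p (hA : Arch v) (D : PData v p γ₀) {w G : F} (hG : G ∈ II L t p w)
    (hG1 : v (G - 1) < γ₀) (hw : v (w - 1) < γ₀ ^ p) (γ : Γ₀) (hγ : γ ≠ 0) :
    ∃ G' : F, G' ∈ II L t p w ∧ v (G' ^ p * w - 1) < γ ∧ v (G' - 1) < γ₀ := by
  have hpF : (p : F) ≠ 0 := D.ne
  have hP : 0 < v (p : F) := zero_lt_iff.2 D.v_ne
  have hp1 : p = (p - 1) + 1 := by have := D.two_le; omega
  have hp0 : p - 1 ≠ 0 := by have := D.two_le; omega
  have h0 : v (G ^ p * w - 1) < γ₀ ^ p := v_pow_mul_sub_one_lt D hG1 hw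
  set ε : F := G ^ p * w - 1 with hε
  set δ : F := ε / p with hδ
  have hpδ : δ * (p : F) = ε := by
    rw [hδ]; field_simp
  have hvδ : v δ * v (p : F) = v ε := by
    rw [← map_mul, hpδ]
  have hd1 : v δ < γ₀ := by
    rw [D.pow_eq, ← hvδ] at h0
    exact lt_of_mul_lt_mul_right h0 zero_le
  set b : F := δ ^ (p - 1) / p with hb
  have hbp : b * (p : F) = δ ^ (p - 1) := by
    rw [hb]; field_simp
  have hvb : v b * v (p : F) = v δ ^ (p - 1) := by
    rw [← map_mul, hbp, map_pow]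
  have hb1 : v b < 1 := by
    have e1 : v b * v (p : F) < 1 * v (p : F) := by
      rw [hvb, one_mul, ← D.eq]
      exact pow_lt_pow_left₀ hd1 zero_le hp0
    exact lt_of_mul_lt_mul_right e1 zero_le
  -- the contraction factor
  obtain ⟨a, ha1, haδ, hab⟩ : ∃ a : F, v a < 1 ∧ v δ ≤ v a ∧ v b ≤ v a := by
    rcases le_total (v δ) (v b) with h | h
    · exact ⟨b, hb1, h, le_rfl⟩
    · exact ⟨δ, hd1.trans D.γ_lt, le_rfl, h⟩
  have H1 : v ε ≤ v a * v (p : F) := by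
    rw [← hvδ]; exact mul_le_mul_left haδ _
  have H2 : v ε ^ (p - 1) ≤ v a * v (p : F) ^ p := by
    have e1 : v ε ^ (p - 1) = v b * v (p : F) ^ p := by
      have e2 : v (p : F) ^ p = v (p : F) * v (p : F) ^ (p - 1) := by
        rw [← pow_succ', ← hp1]
      rw [← hvδ, mul_pow, ← hvb, e2, mul_assoc]
    rw [e1]; exact mul_le_mul_left hab _
  have hε1 : v ε ≤ 1 := (h0.trans (D.pow_lt.trans D.γ_lt)).le
  have iter : ∀ k : ℕ, ∃ G' : F, G' ∈ II L t p w ∧ v (G' - 1) < γ₀ ∧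
      v (G' ^ p * w - 1) ≤ v a ^ k * v ε := by
    intro k
    induction k with
    | zero => exact ⟨G, hG, hG1, by rw [pow_zero, one_mul]⟩
    | succ k ih =>
      obtain ⟨G₁, hG₁, hG₁1, hle⟩ := ih
      have hle' : v (G₁ ^ p * w - 1) ≤ v ε :=
        hle.trans (mul_le_of_le_one_left' (pow_le_one₀ zero_le ha1.le))
      obtain ⟨G₂, hG₂, hG₂1, hle₂⟩ := newton_p_step D hG₁ hG₁1 (lt_of_le_of_lt hle' h0) ha1.le
        (hle'.trans H1) ((pow_le_pow_left₀ zero_le hle' _).trans H2)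
      refine ⟨G₂, hG₂, hG₂1, hle₂.trans ?_⟩
      rw [pow_succ', mul_assoc]
      exact mul_le_mul_right hle _
  obtain ⟨m, hm⟩ := hA a ha1 γ hγ
  obtain ⟨G', hG', hG'1, hle⟩ := iter m
  exact ⟨G', hG', lt_of_le_of_lt (hle.trans (mul_le_of_le_one_right' hε1)) hm, hG'1⟩

/-- **N3.**  PROOF.  `v a = v b = v w = 1`.  `z = (a - b) / b`, `v z = v (a - b) < γ₀`.  `a^p - b^p = b^p ((1 + z)^p - 1)`,
`(1+z)^p - 1 = p z (1 + z κ) + z^p` (`binom_p`), `v (z^p) < v p * v z` if `z ≠ 0` (as `v z ^ (p-1) < γ₀^(p-1) = v p`), so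
`v (a^p - b^p) = v p * v (a - b)`.  And `a^p - b^p = ((a^p w - 1) - (b^p w - 1)) / w`. -/
theorem close_p (D : PData v p γ₀) {w a b : F} (hw : v (w - 1) < 1)
    (ha : v (a - 1) < γ₀) (hb : v (b - 1) < γ₀) (γ : Γ₀)
    (ha' : v (a ^ p * w - 1) < γ * v (p : F)) (hb' : v (b ^ p * w - 1) < γ * v (p : F)) :
    v (a - b) < γ := by
  have hp2 := D.two_le
  have hbv : v b = 1 := N1_v_eq_one (hb.trans D.γ_lt)
  have hwv : v w = 1 := N1_v_eq_one hw
  have hγ : γ ≠ 0 := by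
    rintro rfl
    rw [zero_mul] at ha'
    exact not_lt_zero ha'
  have hd : v (a - b) < γ₀ := by
    have : a - b = (a - 1) - (b - 1) := by ring
    rw [this]
    exact Valuation.map_sub_lt v ha hb
  by_cases hd0 : a - b = 0
  · rw [hd0, map_zero]
    exact zero_lt_iff.2 hγ
  have hdv : v (a - b) ≠ 0 := (Valuation.ne_zero_iff v).2 hd0
  obtain ⟨κ, hκ, hbin⟩ := binom_p D.prime (a := b) (y := a - b) hbv.le (hd.trans D.γ_lt).le
  have h1 : a ^ p - b ^ p = (a - b) ^ p + p * (a - b) * (b ^ (p - 1) + (a - b) * κ) := by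
    have : (b + (a - b)) ^ p = a ^ p := by rw [add_sub_cancel]
    rw [this] at hbin
    rw [hbin]
    ring
  have h2 : v (b ^ (p - 1) + (a - b) * κ) = 1 := by
    have e1 : v (b ^ (p - 1)) = 1 := by rw [map_pow, hbv, one_pow]
    have e2 : v ((a - b) * κ) < v (b ^ (p - 1)) := by
      rw [e1, map_mul]
      exact lt_of_le_of_lt (mul_le_of_le_one_right' hκ) (hd.trans D.γ_lt)
    rw [Valuation.map_add_eq_of_lt_left v e2, e1]
  have h3 : v ((p : F) * (a - b) * (b ^ (p - 1) + (a - b) * κ)) = v (p : F) * v (a - b) := by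
    rw [map_mul, map_mul, h2, mul_one]
  have h4 : v ((a - b) ^ p) < v (p : F) * v (a - b) := by
    have e1 : p = (p - 1) + 1 := by omega
    rw [map_pow]
    conv_lhs => rw [e1]
    rw [pow_succ, ← D.eq]
    exact mul_lt_mul_of_pos_right (pow_lt_pow_left₀ hd zero_le (by omega)) (zero_lt_iff.2 hdv)
  have h5 : v (a ^ p - b ^ p) = v (p : F) * v (a - b) := by
    rw [h1, Valuation.map_add_eq_of_lt_right v (by rw [h3]; exact h4), h3]
  have h6 : v (a ^ p - b ^ p) < γ * v (p : F) := by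
    have e1 : (a ^ p - b ^ p) * w = (a ^ p * w - 1) - (b ^ p * w - 1) := by ring
    have e2 : v ((a ^ p - b ^ p) * w) < γ * v (p : F) := by
      rw [e1]
      exact Valuation.map_sub_lt v ha' hb'
    rwa [map_mul, hwv, mul_one] at e2
  rw [h5, mul_comm] at h6
  exact lt_of_mul_lt_mul_right h6 zero_le

end Fermat.Agent.ORD.P4
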