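import Fermat.Agent.ORD.P4.Basic

/-!
# ORD / P4-O : Weierstrass division in `L[t]` for the Gauss norm
-/

set_option autoImplicit false

namespace Fermat.Agent.ORD.P4

open Polynomial Fermat.Agent.GAL.KL

variable {L F Γ₀ : Type*} [Field L] [Field F] [Algebra L F] [LinearOrderedCommGroupWithZero Γ₀]
variable {v : Valuation F Γ₀} {t : F}

theorem orth_aux (hG : Gauss L v t) (q ρ : L[X]) (hq : q.Monic) (hq1 : v (aeval t q) ≤ 1)
    (hρ : ρ.degree < q.degree) (γ : Γ₀) (n : ℕ) :
    ∀ r : L[X], r.natDegree < n → v (aeval t (q * r + ρ)) ≤ γ → v (aeval t r) ≤ γ := by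
  induction n with
  | zero => intro r hr; exact absurd hr (Nat.not_lt_zero _)
  | succ n ih =>
    intro r hr h
    have hlead : v (algebraMap L F r.leadingCoeff) ≤ γ := by
      have h1 := (hG _ γ).mp h (q.natDegree + r.natDegree)
      rw [coeff_add, coeff_mul_degree_add_degree, hq.leadingCoeff, one_mul,
        coeff_eq_zero_of_degree_lt, add_zero] at h1
      · exact h1
      · refine lt_of_lt_of_le hρ ?_
        rw [degree_eq_natDegree hq.ne_zero]
        exact_mod_cast Nat.le_add_right _ _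
    have hmon : v (aeval t (C r.leadingCoeff * X ^ r.natDegree)) ≤ γ := by
      rw [map_mul, map_pow, aeval_C, aeval_X, map_mul, map_pow, hG.v_t, one_pow, mul_one]
      exact hlead
    have hdec := eraseLead_add_C_mul_X_pow r
    have h2 : v (aeval t (q * r.eraseLead + ρ)) ≤ γ := by
      have h3 : q * r.eraseLead + ρ =
          (q * r + ρ) - q * (C r.leadingCoeff * X ^ r.natDegree) := by
        linear_combination q * hdec
      rw [h3, map_sub]
      refine v.map_sub_le h ?_
      rw [map_mul, map_mul]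
      calc v (aeval t q) * v (aeval t (C r.leadingCoeff * X ^ r.natDegree)) ≤ 1 * γ :=
            mul_le_mul' hq1 hmon
        _ = γ := one_mul _
    have h4 : v (aeval t r.eraseLead) ≤ γ := by
      rcases eraseLead_natDegree_lt_or_eraseLead_eq_zero r with h5 | h5
      · exact ih _ (by omega) h2
      · rw [h5, map_zero, map_zero]; exact zero_le
    rw [← hdec, map_add]
    exact v.map_add_le h4 hmon

/-- **O1** (orthogonality of `q L[t]` and `L[t]_{< deg q}` for `q` monic of Gauss norm `≤ 1`).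
PROOF.  It suffices to show `v (aeval t r) ≤ γ` (then `ρ = (q r + ρ) - q r`).  Strong induction on `r.natDegree` (`r = 0` trivial):
the coefficient of `X^(deg q + deg r)` in `q r + ρ` is `r.leadingCoeff` (`coeff_mul_degree_add_degree`, `hq.leadingCoeff`, `coeff_eq_zero_of_degree_lt`/`natDegree_lt`), so
`v (lead r) ≤ γ` by `hG`;  `q * r.eraseLead + ρ = (q r + ρ) - C (lead r) * X^(deg r) * q` has norm `≤ γ` (`hG.v_t`), induction hypothesis
(`eraseLead_natDegree_lt_or_eraseLead_eq_zero`), `r = r.eraseLead + C (lead r) * X ^ deg r` (`eraseLead_add_C_mul_X_pow`). -/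
theorem orth (hG : Gauss L v t) (q r ρ : L[X]) (hq : q.Monic) (hq1 : v (aeval t q) ≤ 1)
    (hρ : ρ.degree < q.degree) (γ : Γ₀) (h : v (aeval t (q * r + ρ)) ≤ γ) :
    v (aeval t r) ≤ γ ∧ v (aeval t ρ) ≤ γ := by
  have hr := orth_aux hG q ρ hq hq1 hρ γ (r.natDegree + 1) r (Nat.lt_succ_self _) h
  refine ⟨hr, ?_⟩
  have h1 : aeval t ρ = aeval t (q * r + ρ) - aeval t q * aeval t r := by
    rw [map_add, map_mul]; ring
  rw [h1]
  refine v.map_sub_le h ?_
  rw [map_mul]
  calc v (aeval t q) * v (aeval t r) ≤ 1 * γ := mul_le_mul' hq1 hr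
    _ = γ := one_mul _

theorem exists_factor_aux [IsAlgClosed L] (hG : Gauss L v t) (n : ℕ) :
    ∀ q : L[X], q.natDegree = n → v (aeval t q) = 1 →
    ∃ (q₁ q₂ : L[X]) (c : L), q = q₁ * q₂ ∧ q₁.Monic ∧ v (aeval t q₁) ≤ 1 ∧
      v (algebraMap L F c) = 1 ∧ v (aeval t q₂ - algebraMap L F c) < 1 := by
  induction n with
  | zero =>
    intro q hn hq
    obtain ⟨c, rfl⟩ : ∃ c, q = C c := ⟨_, eq_C_of_natDegree_eq_zero hn⟩
    rw [aeval_C] at hq
    refine ⟨1, C c, c, (one_mul _).symm, monic_one, by rw [map_one, map_one], hq, ?_⟩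
    rw [aeval_C, sub_self, map_zero]
    exact zero_lt_one
  | succ n ih =>
    intro q hn hq
    have hdeg : q.degree ≠ 0 := by
      intro h0
      have := natDegree_eq_zero_iff_degree_le_zero.2 h0.le
      omega
    obtain ⟨α, hα⟩ := IsAlgClosed.exists_root q hdeg
    obtain ⟨q', rfl⟩ := dvd_iff_isRoot.2 hα
    have hq'0 : q' ≠ 0 := by
      rintro rfl
      rw [mul_zero, map_zero, map_zero] at hq
      exact zero_ne_one hq
    have hn' : q'.natDegree = n := by
      rw [natDegree_mul (X_sub_C_ne_zero α) hq'0, natDegree_X_sub_C] at hn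
      omega
    rw [map_mul, map_mul] at hq
    by_cases hvα : v (algebraMap L F α) ≤ 1
    · have h1 : v (aeval t (X - C α)) = 1 := by
        apply le_antisymm
        · rw [map_sub, aeval_X, aeval_C]
          exact v.map_sub_le hG.v_t.le hvα
        · have h2 := (hG (X - C α) _).mp le_rfl 1
          rwa [coeff_sub, coeff_X_one, coeff_C_succ, sub_zero, map_one, map_one] at h2
      rw [h1, one_mul] at hq
      obtain ⟨q₁, q₂, c, rfl, hm, hq₁, hc, hq₂⟩ := ih q' hn' hq
      refine ⟨(X - C α) * q₁, q₂, c, (mul_assoc _ _ _).symm, (monic_X_sub_C α).mul hm, ?_, hc, hq₂⟩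
      rw [map_mul, map_mul, h1, one_mul]
      exact hq₁
    · rw [not_le] at hvα
      have hα0 : α ≠ 0 := by
        rintro rfl
        rw [map_zero, map_zero] at hvα
        exact not_lt_of_ge zero_le hvα
      have hsmall : v (algebraMap L F α⁻¹ * t) < 1 := by
        rw [map_mul, hG.v_t, mul_one, map_inv₀, map_inv₀]
        exact inv_lt_one_of_one_lt₀ hvα
      have h1 : v (aeval t (1 - C α⁻¹ * X)) = 1 := by
        rw [map_sub, map_one, map_mul, aeval_C, aeval_X]
        exact v.map_one_sub_of_lt hsmall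
      have hfac : (X - C α) * q' = (1 - C α⁻¹ * X) * (C (-α) * q') := by
        have h2 : (1 - C α⁻¹ * X) * C (-α) = X - C α := by
          have h3 : (C α⁻¹ : L[X]) * C α = 1 := by
            rw [← C_mul, inv_mul_cancel₀ hα0, C_1]
          rw [C_neg]
          linear_combination (X : L[X]) * h3
        rw [← mul_assoc, h2]
      have hq'' : v (aeval t (C (-α) * q')) = 1 := by
        have h2 : v (aeval t ((X - C α) * q')) = 1 := by rw [map_mul, map_mul]; exact hq
        rw [hfac, map_mul, map_mul, h1, one_mul] at h2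
        exact h2
      have hn'' : (C (-α) * q').natDegree = n := by
        rw [natDegree_C_mul (neg_ne_zero.2 hα0)]; exact hn'
      obtain ⟨q₁, q₂, c, hqq, hm, hq₁, hc, hq₂⟩ := ih _ hn'' hq''
      refine ⟨q₁, (1 - C α⁻¹ * X) * q₂, c, ?_, hm, hq₁, hc, ?_⟩
      · rw [hfac, hqq]; ring
      · have hq₂le : v (aeval t q₂) ≤ 1 := by
          have h2 : aeval t q₂ = (aeval t q₂ - algebraMap L F c) + algebraMap L F c := by ring
          rw [h2]
          exact v.map_add_le hq₂.le hc.le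
        have h3 : aeval t ((1 - C α⁻¹ * X) * q₂) - algebraMap L F c =
            (aeval t q₂ - algebraMap L F c) - algebraMap L F α⁻¹ * t * aeval t q₂ := by
          rw [map_mul, map_sub, map_one, map_mul, aeval_C, aeval_X]; ring
        rw [h3]
        refine v.map_sub_lt hq₂ ?_
        rw [map_mul]
        exact mul_lt_one_of_lt_of_le hsmall hq₂le

/-- **O2** (factorisation: roots in the closed unit disc / outside).
PROOF.  Induction on `q.natDegree`.  Degree `0`: `q = C c`, `q₁ = 1`, `q₂ = q`.  Otherwise `q` has a root `α` (`IsAlgClosed.exists_root`), `q = (X - C α) * q'`.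
If `v α ≤ 1`: `v (t - α) = 1` (Gauss: coefficients `1, -α`), so `v (q'(t)) = 1`; take `(X - C α) * q₁'`, `q₂'`, `c'`.
If `v α > 1`: `q = (1 - C α⁻¹ * X) * (C (-α) * q')`, `v (1 - α⁻¹ t) = 1`, so `C (-α) * q'` has norm one; take `q₁'`, `(1 - C α⁻¹ X) * q₂'`, `c'`
(`(1 - α⁻¹ t) q₂'(t) - c' = (q₂'(t) - c') - α⁻¹ t q₂'(t)`). -/
theorem exists_factor [IsAlgClosed L] (hG : Gauss L v t) (q : L[X]) (hq : v (aeval t q) = 1) :
    ∃ (q₁ q₂ : L[X]) (c : L), q = q₁ * q₂ ∧ q₁.Monic ∧ v (aeval t q₁) ≤ 1 ∧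
      v (algebraMap L F c) = 1 ∧ v (aeval t q₂ - algebraMap L F c) < 1 :=
  exists_factor_aux hG _ q rfl hq

/-- **O3** (approximate inverse).  `m = 1 - C c⁻¹ * q₂`, `v (m(t)) < 1`, `hA`: `v (m(t)) ^ K < γ`; `s = C c⁻¹ * ∑ k < K, m ^ k`; `q₂ * s = (1 - m) ∑ m^k = 1 - m ^ K`. -/
theorem exists_approx_inv (hA : Arch v) (q₂ : L[X]) (c : L) (hc : v (algebraMap L F c) = 1)
    (h : v (aeval t q₂ - algebraMap L F c) < 1) (γ : Γ₀) (hγ : γ ≠ 0) :
    ∃ s : L[X], v (aeval t (q₂ * s) - 1) < γ := by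
  have hc0 : c ≠ 0 := by
    rintro rfl
    rw [map_zero, map_zero] at hc
    exact zero_ne_one hc
  have hc0' : algebraMap L F c ≠ 0 := by
    rwa [Ne, map_eq_zero]
  set m : L[X] := 1 - C c⁻¹ * q₂ with hm
  have hmv : v (aeval t m) < 1 := by
    have h1 : aeval t m = - ((algebraMap L F c)⁻¹ * (aeval t q₂ - algebraMap L F c)) := by
      rw [hm, map_sub, map_one, map_mul, aeval_C, map_inv₀]
      field_simp
      ring
    rw [h1, Valuation.map_neg, map_mul, map_inv₀, hc, inv_one, one_mul]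
    exact h
  obtain ⟨K, hK⟩ := hA _ hmv γ hγ
  refine ⟨C c⁻¹ * ∑ k ∈ Finset.range K, m ^ k, ?_⟩
  have h1 : q₂ * (C c⁻¹ * ∑ k ∈ Finset.range K, m ^ k) = 1 - m ^ K := by
    have h2 : q₂ * C c⁻¹ = 1 - m := by rw [hm]; ring
    rw [← mul_assoc, h2]
    exact mul_neg_geom_sum m K
  have h3 : aeval t (1 - m ^ K) - 1 = - (aeval t m) ^ K := by
    rw [map_sub, map_one, map_pow]; ring
  rw [h1, h3, Valuation.map_neg, map_pow]
  exact hK

end Fermat.Agent.ORD.P4
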